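/-
PROJECT R (row 37 by S43), block T1, brick (E) = [T1/Eis/StepN] (helper16): THE EISENSTEIN STEP AT
TORSION LEVEL `n`, FRAME PRIME `q` (twin of my `S44/Eis/EisAlg` + `S44/Eis/EisInst`, `p ↦ n` in the
multiplier of the divisors and in `ZMod`, `p ↦ q` as frame prime) + THE UNIT SIDE `UnitSideN`.

* `forall_node_eq_zeroN` : the Eisenstein algebra over `ZMod n`, `n` not necessarily prime: the two
  non-vanishing hypotheses of `S44/Eis/EisAlg.forall_node_eq_zero` become `IsUnit` hypotheses;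
* `hasNodeOrdN_zsmul`, `nodeOrdN_eq_zero`, `hasNodeOrdN_zero` : the instance at a chart frame, with
  helper26's `T1/Fin/HeckeN.exists_hecke_redN` and main's `S44/Eis/EisInst.exists_red_normBeta`
  (frame-only);
* **`unitSideN (SF : StdFrame F) : UnitSideN F SF.NF.w`** : assembly of main's `S44/Eis/UnitSlope`,
  `UnitOff.ord_red_unitU_eq_zero`, `UnitFinal.hasSepY` (all general in the frame prime);
* **`eisEigenN (SF : StdFrame F) (h12 : n.Coprime 12) : EisEigenN F n SF.NF.w`**, and the form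
  `eisEigenN_of` for any `w` with `UnitSideN F w` and `RedStd F`.

`HasNodeOrdN` of `T1/Seam` and of helper19's `T1/Node/Ord` are the same literal (`Iff.rfl`).
-/
import Fermat.Agent.S43.T1.Seam
import Fermat.Agent.S43.T1.Node.Ord
import Fermat.Agent.S44.Eis.EisInst
import Fermat.Agent.S44.Eis.UnitFinal

set_option autoImplicit false
set_option linter.unusedSectionVars false
set_option linter.unusedVariables false
set_option linter.style.haveILetI false
set_option synthInstance.maxHeartbeats 400000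

noncomputable section

namespace Fermat.Agent.S43.T1.Eis.StepN

/-! ### The Eisenstein algebra over `ZMod n` -/

section Alg

variable {X ι : Type*}

/-- **the Eisenstein algebra**, `n` arbitrary: twin of `S44/Eis/EisAlg.forall_node_eq_zero` -/
theorem forall_node_eq_zeroN (node : ι → X) (cusp : Set X) (T : (X →₀ ℤ) →+ (X →₀ ℤ))
    {n : ℕ} (hn : n ≠ 0) (Dx Du : X →₀ ℤ) (m r : ℕ) (w : ι → ℤ) (c a : ZMod n)
    (h1 : ∀ Δ : X →₀ ℤ, (∀ Q, Δ Q ≠ 0 → Q ∈ cusp) → ∀ Q', Q' ∉ cusp → T Δ Q' = 0)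
    (h2 : ∀ e, node e ∉ cusp)
    (h3 : ∀ Q, Q ∉ Set.range node → Q ∉ cusp → (n : ℤ) ∣ Dx Q)
    (h4 : ∀ Q, Q ∉ Set.range node → Q ∉ cusp → (n : ℤ) ∣ Du Q)
    (h5 : ∀ e, w e * Du (node e) = m) (h5' : ∀ e, w e * T Du (node e) = m * (r + 1))
    (hm : IsUnit (m : ZMod n))
    (h6 : ∀ e, ((w e * Dx (node e) : ℤ) : ZMod n) = c)
    (h7 : ∀ e, ((T Dx (node e) : ℤ) : ZMod n) = a * ((Dx (node e) : ℤ) : ZMod n))
    (h8 : IsUnit (a - ((r : ZMod n) + 1))) (e : ι) :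
    ((Dx (node e) : ℤ) : ZMod n) = 0 := by
  obtain ⟨c', hc'⟩ := ZMod.intCast_surjective c
  -- `Ψ = m Dx - c Du` is divisible by `n` off the cusps
  have hΨ : ∀ Q, Q ∉ cusp → (n : ℤ) ∣ ((m : ℤ) • Dx - c' • Du) Q := by
    intro Q hQ
    rw [Finsupp.sub_apply, Finsupp.smul_apply, Finsupp.smul_apply, smul_eq_mul, smul_eq_mul]
    by_cases hn' : Q ∈ Set.range node
    · obtain ⟨e', rfl⟩ := hn'
      rw [← CharP.intCast_eq_zero_iff (ZMod n) n]
      have e1 := h6 e'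
      have e2 := congrArg (fun z : ℤ => (z : ZMod n)) (h5 e')
      simp only [Int.cast_mul, Int.cast_natCast] at e1 e2
      rw [Int.cast_sub, Int.cast_mul, Int.cast_mul, Int.cast_natCast, hc', ← e2, ← e1]
      ring
    · exact dvd_sub (Dvd.dvd.mul_left (h3 Q hn' hQ) _) (Dvd.dvd.mul_left (h4 Q hn' hQ) _)
  obtain ⟨Ψ₁, Ψc, hdec, hΨc⟩ := Fermat.Agent.S44.Eis.EisAlg.exists_decomp cusp n hn _ hΨ
  -- apply `T` and evaluate at the node
  have hT : ((m : ℤ) • T Dx - c' • T Du) (node e) =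
      (n : ℤ) * T Ψ₁ (node e) + T Ψc (node e) := by
    have := congrArg (fun D => T D (node e)) hdec
    simp only [map_sub, map_add, map_zsmul, Finsupp.add_apply, Finsupp.smul_apply,
      smul_eq_mul] at this
    rw [Finsupp.sub_apply, Finsupp.smul_apply, Finsupp.smul_apply, smul_eq_mul, smul_eq_mul]
    rw [Finsupp.sub_apply, Finsupp.smul_apply, Finsupp.smul_apply, smul_eq_mul, smul_eq_mul]
      at this
    exact this
  rw [h1 Ψc hΨc (node e) (h2 e), add_zero, Finsupp.sub_apply, Finsupp.smul_apply,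
    Finsupp.smul_apply, smul_eq_mul, smul_eq_mul] at hT
  have hT' := congrArg (fun z : ℤ => (z : ZMod n)) hT
  simp only [Int.cast_sub, Int.cast_mul, Int.cast_natCast, ZMod.natCast_self, zero_mul] at hT'
  rw [hc', sub_eq_zero] at hT'
  -- multiply by `w e`
  have e5 := congrArg (fun z : ℤ => (z : ZMod n)) (h5 e)
  have e5' := congrArg (fun z : ℤ => (z : ZMod n)) (h5' e)
  have e6 := h6 e
  have e7 := h7 e
  simp only [Int.cast_mul, Int.cast_natCast, Int.cast_add, Int.cast_one] at e5 e5' e6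
  have hmac : (m : ZMod n) * (a * c) = c * ((m : ZMod n) * ((r : ZMod n) + 1)) := by
    rw [← e5', ← e6]
    calc (m : ZMod n) * (a * ((w e : ZMod n) * ((Dx (node e) : ℤ) : ZMod n)))
        = (w e : ZMod n) * ((m : ZMod n) * (a * ((Dx (node e) : ℤ) : ZMod n))) := by ring
      _ = (w e : ZMod n) * ((m : ZMod n) * ((T Dx (node e) : ℤ) : ZMod n)) := by rw [e7]
      _ = (w e : ZMod n) * (c * ((T Du (node e) : ℤ) : ZMod n)) := by rw [hT']
      _ = c * ((w e : ZMod n) * ((T Du (node e) : ℤ) : ZMod n)) := by ring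
      _ = (w e : ZMod n) * ((Dx (node e) : ℤ) : ZMod n) *
            ((w e : ZMod n) * ((T Du (node e) : ℤ) : ZMod n)) := by rw [e6]
  have hc0 : c = 0 := by
    have h9 : (m : ZMod n) * c * (a - ((r : ZMod n) + 1)) = 0 := by
      have : (m : ZMod n) * c * (a - ((r : ZMod n) + 1)) =
          (m : ZMod n) * (a * c) - c * ((m : ZMod n) * ((r : ZMod n) + 1)) := by ring
      rw [this, hmac, sub_self]
    have h10 : (m : ZMod n) * c = 0 := (h8.mul_left_eq_zero).mp h9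
    exact (hm.mul_right_eq_zero).mp h10
  have hw0 : IsUnit (w e : ZMod n) := by
    rw [← e5] at hm
    exact isUnit_of_mul_isUnit_left hm
  rw [hc0] at e6
  exact (hw0.mul_right_eq_zero).mp e6

end Alg

/-! ### The instance at a chart frame -/

open ModularCurve AlgebraicCurve IsLocalRing
open Fermat.Agent.S37.ES.NormRed
open Fermat.Agent.S34.GaussPairX0
open Fermat.Agent.S33.X0.Frame Fermat.Agent.S34.CoreZX0Datum
open Fermat.Agent.S44.Eis.HeckeK Fermat.Agent.S44.Eis.HeckeNode Fermat.Agent.S44.Eis.HeckeCusp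
open Fermat.Agent.S44.Core.NodeOrd Fermat.Agent.S44.Core.FrameHyp
open Fermat.Agent.S44.X0.NodeFrameDef Fermat.Agent.S44.Eis.UnitSlope
open Fermat.Agent.S43.T1.Node.Ord Fermat.Agent.S43.T1.Fin.HeckeN
open Fermat.Agent.S18.B.FkBasics (jk)

local notation "Kb" => AlgebraicClosure ℚ

attribute [local instance] Fermat.Agent.S18.A.Instances.hasPrincipalDivisors_bar

attribute [local instance 2000] Fermat.Agent.S34.EulerX0.algResFk

local instance instNeZeroMul (M q : ℕ) [NeZero M] [NeZero q] : NeZero (M * q) :=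
  ⟨Nat.mul_ne_zero (NeZero.ne M) (NeZero.ne q)⟩

local instance instPDFk (A : ValuationSubring Kb) (N : ℕ) [NeZero N] :
    HasPrincipalDivisors (ResidueField ↥A) ↥(modularFunctionFieldFullC (ResidueField ↥A) N) :=
  Fermat.Agent.S37.ReductionInputs.hasPrincipalDivisors_Fk A N

/-- local instance: a prime is not zero -/
local instance instNeZeroPrimes (r : Nat.Primes) : NeZero (r : ℕ) := ⟨r.2.ne_zero⟩

variable {q : ℕ} [hq : Fact q.Prime] {M : ℕ} [NeZero M] {A : ValuationSubring Kb} [NeZero q]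
variable {hA : A.LiesOverPrime q} {hqM : ¬ q ∣ M}

/-- the two `HasNodeOrdN` are the same literal -/
theorem hasNodeOrdN_iff {F : ChartFrame hA hqM} {n : ℕ} {x : JZero (M * q)}
    {a : Node F → ZMod n} :
    Fermat.Agent.S43.T1.Seam.HasNodeOrdN F n x a ↔ HasNodeOrdN F n x a := Iff.rfl

/-- multiples of a class with node orders -/
theorem hasNodeOrdN_zsmul {F : ChartFrame hA hqM} {n : ℕ} {x : JZero (M * q)}
    {a : Node F → ZMod n} (hx : HasNodeOrdN F n x a) (k : ℤ) :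
    HasNodeOrdN F n (k • x) (k • a) := by
  induction k using Int.induction_on with
  | zero =>
    rw [zero_zsmul, zero_zsmul]
    exact HasNodeOrdN.zero F n
  | succ k ih =>
    rw [add_zsmul, add_zsmul, one_zsmul, one_zsmul]
    exact ih.add hx
  | pred k ih =>
    rw [sub_zsmul, sub_zsmul, one_zsmul, one_zsmul]
    exact ih.add hx.neg

set_option maxHeartbeats 1600000 in
/-- **The Eisenstein step at the chart frame, level `n`.**  `x = [D]`, `n D = div u_x`,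
`T_r x = a x` with `a - (r + 1)` a unit of `ℤ/n`; `u` a unit of the first Gauss ring (the modular
unit) with `w_e a_e(u) = m`, `w_e a_e(T_r u) = m (r + 1)`, `m` a unit of `ℤ/n`; `w_e a_e(x) = c` in
`ℤ/n` for all nodes `e`; off the nodes and the cusps the orders of `red u_x` and `red u` are
divisible by `n`.  Then all node orders of `x` vanish in `ℤ/n`. -/
theorem nodeOrdN_eq_zero (F : ChartFrame hA hqM) (hF : RedStd F) (r : Nat.Primes)
    (hrq : (r : ℕ) ≠ q) (hrM : ¬ (r : ℕ) ∣ M) {n : ℕ} (hn : n ≠ 0)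
    (D : Divisor.degZero (K := Kb) (F := ↥(modularFunctionFieldBar (M * q))))
    (ux : (F.X.N.R1.O)ˣ)
    (hD : ∀ P : Place Kb ↥(modularFunctionFieldBar (M * q)),
      (n : ℤ) * (D : Divisor Kb ↥(modularFunctionFieldBar (M * q))) P =
        P.ord (((ux : F.X.N.R1.O)) : ↥(modularFunctionFieldBar (M * q))))
    (a : ℤ) (hx : heckeOperatorBar (M * q) r (Pic0.mk D) = a • Pic0.mk D)
    (ha : IsUnit ((a : ZMod n) - (((r : ℕ) : ZMod n) + 1)))
    (u : (F.X.N.R1.O)ˣ) (w : Node F → ℤ) (m : ℕ) (hm : IsUnit (m : ZMod n))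
    (hwu : ∀ e, w e * (F.X.N.e1 e).ord (F.X.N.R1.red u) = m)
    (hwTu : ∀ (hmem : normBeta (M * q) r (((u : F.X.N.R1.O)) :
        ↥(modularFunctionFieldBar (M * q))) ∈ F.X.N.R1.O) (e : Node F),
        w e * (F.X.N.e1 e).ord (F.X.N.R1.red ⟨_, hmem⟩) = m * ((r : ℕ) + 1))
    (c : ZMod n)
    (hc : ∀ e, ((w e * (F.X.N.e1 e).ord (F.X.N.R1.red ux) : ℤ) : ZMod n) = c)
    (hnc : ∀ e, 0 ≤ (F.X.N.e1 e).ord (jk (ResidueField ↥A) M))
    (hx_off : ∀ Q, Q ∉ Set.range F.X.N.e1 → 0 ≤ Q.ord (jk (ResidueField ↥A) M) →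
      (n : ℤ) ∣ Q.ord (F.X.N.R1.red ux))
    (hu_off : ∀ Q, Q ∉ Set.range F.X.N.e1 → 0 ≤ Q.ord (jk (ResidueField ↥A) M) →
      (n : ℤ) ∣ Q.ord (F.X.N.R1.red u))
    (e : Node F) :
    (((F.X.N.e1 e).ord (F.X.N.R1.red ux) : ℤ) : ZMod n) = 0 := by
  have hux0 : F.X.N.R1.red (ux : F.X.N.R1.O) ≠ 0 := fun h0 =>
    ((F.X.N.R1.red_eq_zero_iff _).mp h0) ux.isUnit
  have hu0 : F.X.N.R1.red (u : F.X.N.R1.O) ≠ 0 := fun h0 =>
    ((F.X.N.R1.red_eq_zero_iff _).mp h0) u.isUnit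
  obtain ⟨Dx, hDx, -⟩ := HasPrincipalDivisors.exists_divisor (K := ResidueField ↥A)
    (F.X.N.R1.red (ux : F.X.N.R1.O)) hux0
  obtain ⟨Du, hDu, -⟩ := HasPrincipalDivisors.exists_divisor (K := ResidueField ↥A)
    (F.X.N.R1.red (u : F.X.N.R1.O)) hu0
  -- `T_r x`
  obtain ⟨D', ux', hD'x, hD', hord'⟩ := exists_hecke_redN F hF r hrq hrM n D ux hD
  -- `T_r u`
  obtain ⟨hmem, -, hordu⟩ :=
    Fermat.Agent.S44.Eis.EisInst.exists_red_normBeta F hF (r := (r : ℕ)) r.2 hrq hrM u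
  -- node orders of `T_r x` in two ways
  have hN1 : HasNodeOrdN F n (heckeOperatorBar (M * q) r (Pic0.mk D))
      (fun e' => (((F.X.N.e1 e').ord (F.X.N.R1.red (ux' : F.X.N.R1.O)) : ℤ) : ZMod n)) :=
    ⟨D', ux', hD'x, hD', fun _ => rfl⟩
  have hN0 : HasNodeOrdN F n (Pic0.mk D)
      (fun e' => (((F.X.N.e1 e').ord (F.X.N.R1.red (ux : F.X.N.R1.O)) : ℤ) : ZMod n)) :=
    ⟨D, ux, rfl, hD, fun _ => rfl⟩
  have hN2 := hasNodeOrdN_zsmul hN0 a
  rw [hx] at hN1
  have huniq := hN1.unique hN2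
  refine forall_node_eq_zeroN (n := n) F.X.N.e1
    {Q | Q.ord (jk (ResidueField ↥A) M) < 0} (heckeDivK M hqM A hA (r : ℕ)) hn Dx Du m (r : ℕ) w c
    (a : ZMod n) ?_ ?_ ?_ ?_ ?_ ?_ hm ?_ ?_ ha e |> fun h => by rw [hDx] at h; exact h
  · intro Δ hΔ Q' hQ'
    exact heckeDivK_apply_eq_zero_of_cuspidal hqM hA r.2 hrM (fun Q hQ => hΔ Q hQ)
      (not_lt.mp hQ')
  · intro e' he'
    exact absurd (hnc e') (not_le.mpr he')
  · intro Q hQ hQc
    rw [hDx]
    exact hx_off Q hQ (not_lt.mp hQc)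
  · intro Q hQ hQc
    rw [hDu]
    exact hu_off Q hQ (not_lt.mp hQc)
  · intro e'
    rw [hDu]
    exact hwu e'
  · intro e'
    rw [← hordu Du hDu (F.X.N.e1 e')]
    exact hwTu hmem e'
  · intro e'
    rw [hDx]
    exact hc e'
  · intro e'
    rw [← hord' Dx hDx (F.X.N.e1 e'), hDx]
    have := congrFun huniq e'
    simp only [Pi.smul_apply, zsmul_eq_mul] at this
    exact this

set_option maxHeartbeats 1600000 in
/-- **The export of the Eisenstein step at level `n`**: the modular unit `U1` with its slope data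
enters as hypotheses (twin of `S44/Eis/EisInst.hasNodeOrd_zero`). -/
theorem hasNodeOrdN_zero (F : ChartFrame hA hqM) (hstd : RedStd F) (w : Node F → ℕ) {n : ℕ}
    (h12 : n.Coprime 12) (U1 : (F.X.N.R1.O)ˣ)
    (hwU : ∀ e, (w e : ℤ) * (F.X.N.e1 e).ord (F.X.N.R1.red U1) = 12)
    (hnc : ∀ e, 0 ≤ (F.X.N.e1 e).ord (jk (ResidueField ↥A) M))
    (hU : ∀ Q, (∀ e, Q ≠ F.X.N.e1 e) → 0 ≤ Q.ord (jk (ResidueField ↥A) M) →
      (n : ℤ) ∣ Q.ord (F.X.N.R1.red U1))
    (r : Nat.Primes) (hrq : (r : ℕ) ≠ q) (hrM : ¬ (r : ℕ) ∣ M)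
    (hwTU : ∀ Δ : Divisor (ResidueField ↥A) ↥(modularFunctionFieldFullC (ResidueField ↥A) M),
      (∀ Q, Δ Q = Q.ord (F.X.N.R1.red U1)) →
      ∀ e, (w e : ℤ) * heckeDivK M hqM A hA (r : ℕ) Δ (F.X.N.e1 e) = 12 * (((r : ℕ) : ℤ) + 1))
    (ar : ℤ) (hne : IsUnit ((ar : ZMod n) - (((r : ℕ) : ZMod n) + 1)))
    (x : JZero (M * q)) (hx : heckeOperatorBar (M * q) r x = ar • x)
    (D : Divisor.degZero (K := Kb) (F := ↥(modularFunctionFieldBar (M * q))))
    (u : (F.X.N.R1.O)ˣ) (hDx : Pic0.mk D = x)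
    (hD : ∀ P : Place Kb ↥(modularFunctionFieldBar (M * q)),
      (n : ℤ) * (D : Divisor Kb ↥(modularFunctionFieldBar (M * q))) P =
        P.ord (((u : F.X.N.R1.O)) : ↥(modularFunctionFieldBar (M * q))))
    (hoff : ∀ Q, (∀ e, Q ≠ F.X.N.e1 e) → 0 ≤ Q.ord (jk (ResidueField ↥A) M) →
      (n : ℤ) ∣ Q.ord (F.X.N.R1.red u))
    (c : ZMod n)
    (hc : ∀ e, ((w e : ℕ) : ZMod n) *
      (((F.X.N.e1 e).ord (F.X.N.R1.red u) : ℤ) : ZMod n) = c) :
    HasNodeOrdN F n x 0 := by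
  have hn : n ≠ 0 := by
    rintro rfl
    rw [Nat.coprime_zero_left] at h12
    omega
  have hU0 : F.X.N.R1.red (U1 : F.X.N.R1.O) ≠ 0 := fun h0 =>
    ((F.X.N.R1.red_eq_zero_iff _).mp h0) U1.isUnit
  obtain ⟨Du, hDu, -⟩ := HasPrincipalDivisors.exists_divisor (K := ResidueField ↥A)
    (F.X.N.R1.red (U1 : F.X.N.R1.O)) hU0
  obtain ⟨hmem, -, hordu⟩ :=
    Fermat.Agent.S44.Eis.EisInst.exists_red_normBeta F hstd (r := (r : ℕ)) r.2 hrq hrM U1
  have hm : IsUnit ((12 : ℕ) : ZMod n) := (ZMod.isUnit_iff_coprime 12 n).mpr h12.symm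
  have hrange : ∀ Q, Q ∉ Set.range F.X.N.e1 → ∀ e, Q ≠ F.X.N.e1 e := by
    intro Q hQ e he
    exact hQ ⟨e, he.symm⟩
  subst hDx
  have hN0 : HasNodeOrdN F n (Pic0.mk D)
      (fun e' => (((F.X.N.e1 e').ord (F.X.N.R1.red (u : F.X.N.R1.O)) : ℤ) : ZMod n)) :=
    ⟨D, u, rfl, hD, fun _ => rfl⟩
  refine (mem_finPartN_iff_eq_zero hN0).mpr (funext fun e => ?_)
  refine nodeOrdN_eq_zero F hstd r hrq hrM hn D u hD ar hx hne U1 (fun e => (w e : ℤ)) 12 hm
    (fun e => by rw [hwU e]; rfl) ?_ c ?_ hnc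
    (fun Q hQ hQj => hoff Q (hrange Q hQ) hQj) (fun Q hQ hQj => hU Q (hrange Q hQ) hQj) e
  · intro hmem' e
    rw [hordu Du hDu (F.X.N.e1 e), hwTU Du hDu e]
    push_cast
    rfl
  · intro e
    rw [Int.cast_mul, Int.cast_natCast]
    exact hc e

/-! ### The two bricks of the seam -/

open Fermat.Agent.S43.T1.Seam (UnitSideN HasOffRepN EisEigenN StdFrame)

set_option maxHeartbeats 1600000 in
/-- **(E) from the unit side**, for any thickness exponents `w` -/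
theorem eisEigenN_of (F : ChartFrame hA hqM) (hstd : RedStd F) (w : Node F → ℕ)
    (hU : UnitSideN F w) {n : ℕ} (h12 : n.Coprime 12) : EisEigenN F n w := by
  intro r hrq hrM ar hne x hx hrep a ha hγ
  obtain ⟨γ, hγ⟩ := hγ
  obtain ⟨U1, hwU, hnc, hUoff, hwTU⟩ := hU
  obtain ⟨D, u, hDx, hD, hoff⟩ := hrep
  have ha' : HasNodeOrdN F n x
      (fun e => (((F.X.N.e1 e).ord (F.X.N.R1.red (u : F.X.N.R1.O)) : ℤ) : ZMod n)) :=
    ⟨D, u, hDx, hD, fun _ => rfl⟩
  have haa := (hasNodeOrdN_iff.mp ha).unique ha'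
  refine hasNodeOrdN_iff.mpr (hasNodeOrdN_zero F hstd w h12 U1 hwU hnc
    (fun Q hQn hQ => by rw [hUoff Q hQn hQ]; exact dvd_zero _) r hrq hrM
    (hwTU r hrq hrM) ar hne x hx D u hDx hD hoff γ (fun e => ?_))
  rw [← hγ e, haa]

set_option maxHeartbeats 1600000 in
/-- **the unit side at a standard frame** (`n`-free): the modular unit `U = Δ(z)/Δ(M q z)` -/
theorem unitSideN {F : ChartFrame hA hqM} (SF : StdFrame F) : UnitSideN F SF.NF.w := by
  have hnode' : ∀ e : Node F, 0 ≤ (F.X.N.e1 e).ord (jk (ResidueField ↥A) M) := by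
    intro e
    rw [SF.Y.e1_eq e]
    exact SF.Y.node_reg e.1 e.2
  refine ⟨unitU F, fun e => mul_ord_U SF.Y SF.Y.sp1_pole hnode' SF.NF.w SF.NF.ξ SF.NF.ord_one
    SF.NF.ord_eq_zero SF.NF.val_two (unitU F) (coe_unitU F) e, hnode',
    fun Q hQn hQ => Fermat.Agent.S44.Eis.UnitOff.ord_red_unitU_eq_zero SF.Y
      (Fermat.Agent.S44.Eis.UnitFinal.hasSepY SF.Y) Q hQn hQ, fun r hrq hrM Δ hΔ e => ?_⟩
  exact mul_ord_hecke_U SF.Y SF.std1 SF.Y.sp1_pole hnode' SF.NF.w SF.NF.ξ SF.NF.ord_one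
    SF.NF.ord_eq_zero SF.NF.val_two (unitU F) (coe_unitU F) r.2 hrq hrM Δ hΔ e

/-- **(E) at a standard frame** -/
theorem eisEigenN {F : ChartFrame hA hqM} (SF : StdFrame F) {n : ℕ} (h12 : n.Coprime 12) :
    EisEigenN F n SF.NF.w :=
  eisEigenN_of F SF.std1 SF.NF.w (unitSideN SF) h12

end Fermat.Agent.S43.T1.Eis.StepN

end
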